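import Mathlib
import Fermat.Agent.LT.A2.H38.MatchSpec

/-!
# Row LT, tower A2, branch GALSEED — leaf A2.01.13 `UnifIdeleC` (helper922)

OFF-MAIN.  Every finite place `w` of a number field `K` has a uniformiser idele: the idele with
component a uniformiser at `w` and `1` at every other place (finite or infinite).

* `localIdele922 w c hc` : the idele with component `c ≠ 0` at `w` and `1` elsewhere
  (`RestrictedProduct.mulSingle`);
* `isIdeleAt_localIdele922`, `localIdele922_apply_self`;
* `exists_unitIdeleAt922` / `exists_ideleAt_of922` : every `c ≠ 0` of `K_w` is the component of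
  an idele supported at `w`;
* `unifIdeleC922 : H38.UnifIdeleC`.
-/

set_option autoImplicit false

open IsDedekindDomain NumberField

noncomputable section

namespace Fermat.Agent.LT.A2.H922

open Fermat.Agent.LT.H556 Fermat.Agent.LT.A2

variable {K : Type} [Field K] [NumberField K]

theorem fin_mul_apply922 (a b : FiniteAdeleRing (𝓞 K) K) (v : HeightOneSpectrum (𝓞 K)) :
    (a * b) v = a v * b v := rfl

theorem fin_one_apply922 (v : HeightOneSpectrum (𝓞 K)) :
    (1 : FiniteAdeleRing (𝓞 K) K) v = 1 := rfl

open Classical in
/-- The finite adele with component `c` at `w` and `1` at every other finite place. -/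
def localFin922 (w : HeightOneSpectrum (𝓞 K)) (c : w.adicCompletion K) :
    FiniteAdeleRing (𝓞 K) K :=
  ⟨Pi.mulSingle w c, Filter.eventually_cofinite.2 ((Set.finite_singleton w).subset fun v hv => by
    by_contra h
    apply hv
    rw [Pi.mulSingle_eq_of_ne h]
    exact one_mem _)⟩

open Classical in
theorem localFin922_same (w : HeightOneSpectrum (𝓞 K)) (c : w.adicCompletion K) :
    localFin922 w c w = c :=
  Pi.mulSingle_eq_same w c

open Classical in
theorem localFin922_ne (w : HeightOneSpectrum (𝓞 K)) (c : w.adicCompletion K)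
    {w' : HeightOneSpectrum (𝓞 K)} (h : w' ≠ w) : localFin922 w c w' = 1 :=
  Pi.mulSingle_eq_of_ne h c

theorem localFin922_mul (w : HeightOneSpectrum (𝓞 K)) (c d : w.adicCompletion K) :
    localFin922 w c * localFin922 w d = localFin922 w (c * d) := by
  apply FiniteAdeleRing.ext
  intro v
  by_cases h : v = w
  · subst h
    rw [fin_mul_apply922, localFin922_same, localFin922_same, localFin922_same]
  · rw [fin_mul_apply922, localFin922_ne w c h, localFin922_ne w d h,
      localFin922_ne w _ h, one_mul]

theorem localFin922_one (w : HeightOneSpectrum (𝓞 K)) :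
    localFin922 w (1 : w.adicCompletion K) = 1 := by
  apply FiniteAdeleRing.ext
  intro v
  by_cases h : v = w
  · subst h
    rw [localFin922_same, fin_one_apply922]
  · rw [localFin922_ne w _ h, fin_one_apply922]

/-- The idele with component `c ≠ 0` at the finite place `w` and `1` at every other place. -/
def localIdele922 (w : HeightOneSpectrum (𝓞 K)) (c : w.adicCompletion K) (hc : c ≠ 0) :
    (A0.Adl K)ˣ where
  val := ((1 : InfiniteAdeleRing K), localFin922 w c)
  inv := ((1 : InfiniteAdeleRing K), localFin922 w c⁻¹)
  val_inv := by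
    apply Prod.ext
    · exact one_mul _
    · show localFin922 w c * localFin922 w c⁻¹ = 1
      rw [localFin922_mul, mul_inv_cancel₀ hc, localFin922_one]
  inv_val := by
    apply Prod.ext
    · exact one_mul _
    · show localFin922 w c⁻¹ * localFin922 w c = 1
      rw [localFin922_mul, inv_mul_cancel₀ hc, localFin922_one]

theorem localIdele922_apply_self (w : HeightOneSpectrum (𝓞 K)) (c : w.adicCompletion K)
    (hc : c ≠ 0) : ((localIdele922 w c hc : (A0.Adl K)ˣ) : A0.Adl K).2 w = c :=
  localFin922_same w c

theorem isIdeleAt_localIdele922 (w : HeightOneSpectrum (𝓞 K)) (c : w.adicCompletion K)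
    (hc : c ≠ 0) : IsIdeleAt w (localIdele922 w c hc) :=
  ⟨fun _ => rfl, fun _ h => localFin922_ne w c h⟩

/-- Every non-zero element of `K_w` is the component of an idele supported at `w`. -/
theorem exists_ideleAt_of922 (w : HeightOneSpectrum (𝓞 K)) (c : w.adicCompletion K)
    (hc : c ≠ 0) : ∃ z : (A0.Adl K)ˣ, IsIdeleAt w z ∧ (z : A0.Adl K).2 w = c :=
  ⟨localIdele922 w c hc, isIdeleAt_localIdele922 w c hc, localIdele922_apply_self w c hc⟩

/-- **A2.01.13 = UNIFIDELE.**  Every finite place has a uniformiser idele. -/
theorem unifIdeleC922 : H38.UnifIdeleC := by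
  intro K _ _ w
  obtain ⟨π, hπ⟩ := w.valuation_exists_uniformizer K
  have hv : Valued.v ((π : K) : w.adicCompletion K) = WithZero.exp (-1 : ℤ) := by
    rw [HeightOneSpectrum.valuedAdicCompletion_eq_valuation']
    exact hπ
  have hc : ((π : K) : w.adicCompletion K) ≠ 0 := by
    intro h
    rw [h, map_zero] at hv
    exact (WithZero.exp_ne_zero).symm hv
  exact ⟨localIdele922 w _ hc, isIdeleAt_localIdele922 w _ hc, by
    rw [localIdele922_apply_self]; exact hv⟩

end Fermat.Agent.LT.A2.H922

end
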