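import Mathlib
import Fermat.Agent.LT.A2.H753.RegSpec
import Fermat.Agent.LT.H767.LocalCompact

/-!
# Row LT, tower A2, leaf A2.03.1.3.2 `H753.SuppProdC` (helper922) -- OFF-MAIN

`suppProdC922 : Fermat.Agent.LT.A2.H753.SuppProdC`, VERBATIM the Prop of
`LT/A2/H753/RegSpec.lean` (helper753@d32e3cf62, sha256 1258ecf1be299f69).

* `isCompact_box922` (abstract, restricted products): a box `{y | ∀ i, y i ∈ C i}` with compact
  sides `C i`, equal to `A i` outside a finite set `S`, is compact in `Πʳ i, [R i, A i]`
  (it is the image of a compact box of the product under the continuous inclusion of the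
  restricted product for the principal filter of `Sᶜ`).
* `B = B₁ ×ˢ B₂`, `B_i = {y : ∀ v, y v ∈ C_i v}`, `C_i v = pr_i (tsupport (f' v))` for `v ∈ S`,
  `C_i v = 𝒪_v` for `v ∉ S` (`𝒪_v` compact: `LT/H767/LocalCompact.lean`, Mathlib only).
* Outside `B` one factor of the product vanishes and the multiplicative support is finite.
* `M = ∏_{v ∈ S} max 1 (sup ‖f' v‖)`.
-/

set_option autoImplicit false
set_option linter.style.haveILetI false

open IsDedekindDomain NumberField AutomorphicForm MeasureTheory Filter
open scoped MatrixGroups Topology RestrictedProduct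

noncomputable section

namespace Fermat.Agent.LT.A2.H922

open Fermat.Agent.LT.H130 Fermat.Agent.LT.H556 Fermat.Agent.LT.A2 Fermat.Agent.LT.A2.WX467
open Fermat.Agent.LT.A2.H753

/-! ## 1. Compact boxes in a restricted product -/

/-- A box with compact sides, equal to `A i` outside a finite set, is compact in the restricted
product `Πʳ i, [R i, A i]`. -/
theorem isCompact_box922 {ι : Type*} (R : ι → Type*) (A : ∀ i, Set (R i))
    [∀ i, TopologicalSpace (R i)] (S : Set ι) (hS : S.Finite) (C : ∀ i, Set (R i))
    (hC : ∀ i, IsCompact (C i)) (hCA : ∀ i, i ∉ S → C i = A i) :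
    IsCompact {y : Πʳ i, [R i, A i] | ∀ i, y i ∈ C i} := by
  have hle : (cofinite : Filter ι) ≤ 𝓟 (Sᶜ) := by
    rw [le_principal_iff]
    exact hS.compl_mem_cofinite
  have h1 : IsCompact {y : Πʳ i, [R i, A i]_[𝓟 (Sᶜ)] | ∀ i, y i ∈ C i} := by
    have hemb := RestrictedProduct.isEmbedding_coe_of_principal (R := R) (A := A) (S := Sᶜ)
    have hpre : {y : Πʳ i, [R i, A i]_[𝓟 (Sᶜ)] | ∀ i, y i ∈ C i}
        = (fun y : Πʳ i, [R i, A i]_[𝓟 (Sᶜ)] => (y : ∀ i, R i)) ⁻¹' (Set.univ.pi C) := by
      ext y
      simp [Set.mem_pi]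
    rw [hpre, hemb.isInducing.isCompact_preimage_iff]
    · exact isCompact_univ_pi hC
    · rw [RestrictedProduct.range_coe_principal]
      intro y hy i hi
      rw [← hCA i hi]
      exact hy i (Set.mem_univ i)
  have h2 : {y : Πʳ i, [R i, A i] | ∀ i, y i ∈ C i}
      = RestrictedProduct.inclusion R A hle '' {y | ∀ i, y i ∈ C i} := by
    ext y
    constructor
    · intro hy
      have hev : ∀ᶠ i in 𝓟 (Sᶜ), y i ∈ A i := by
        rw [eventually_principal]
        intro i hi
        rw [← hCA i hi]
        exact hy i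
      obtain ⟨y', rfl⟩ := RestrictedProduct.exists_inclusion_eq_of_eventually R A hle hev
      exact ⟨y', hy, rfl⟩
    · rintro ⟨y', hy', rfl⟩
      exact hy'
  rw [h2]
  exact h1.image (RestrictedProduct.continuous_inclusion hle)

/-! ## 2. The leaf -/

section Leaf

variable {K : Type} [Field K] [NumberField K]

/-- The sides of the box: `pr (tsupport (f' v))` at `v ∈ S`, `𝒪_v` at `v ∉ S`. -/
def side922 (S : Finset (HeightOneSpectrum (𝓞 K)))
    (f' : ∀ v : HeightOneSpectrum (𝓞 K), v.adicCompletion K × v.adicCompletion K → ℂ)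
    (pr : ∀ v : HeightOneSpectrum (𝓞 K),
      v.adicCompletion K × v.adicCompletion K → v.adicCompletion K)
    (v : HeightOneSpectrum (𝓞 K)) : Set (v.adicCompletion K) :=
  letI := Classical.propDecidable
  if v ∈ S then pr v '' tsupport (f' v) else (v.adicCompletionIntegers K : Set _)

theorem side_of_mem922 {S : Finset (HeightOneSpectrum (𝓞 K))}
    (f' : ∀ v : HeightOneSpectrum (𝓞 K), v.adicCompletion K × v.adicCompletion K → ℂ)
    (pr : ∀ v : HeightOneSpectrum (𝓞 K),
      v.adicCompletion K × v.adicCompletion K → v.adicCompletion K)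
    {v : HeightOneSpectrum (𝓞 K)} (hv : v ∈ S) :
    side922 S f' pr v = pr v '' tsupport (f' v) := by
  unfold side922
  rw [if_pos hv]

theorem side_of_not_mem922 {S : Finset (HeightOneSpectrum (𝓞 K))}
    (f' : ∀ v : HeightOneSpectrum (𝓞 K), v.adicCompletion K × v.adicCompletion K → ℂ)
    (pr : ∀ v : HeightOneSpectrum (𝓞 K),
      v.adicCompletion K × v.adicCompletion K → v.adicCompletion K)
    {v : HeightOneSpectrum (𝓞 K)} (hv : v ∉ S) :
    side922 S f' pr v = (v.adicCompletionIntegers K : Set _) := by
  unfold side922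
  rw [if_neg hv]

theorem isCompact_side922 (S : Finset (HeightOneSpectrum (𝓞 K)))
    (f' : ∀ v : HeightOneSpectrum (𝓞 K), v.adicCompletion K × v.adicCompletion K → ℂ)
    (hf : ∀ v, HasCompactSupport (f' v))
    (pr : ∀ v : HeightOneSpectrum (𝓞 K),
      v.adicCompletion K × v.adicCompletion K → v.adicCompletion K)
    (hpr : ∀ v, Continuous (pr v)) (v : HeightOneSpectrum (𝓞 K)) :
    IsCompact (side922 S f' pr v) := by
  classical
  by_cases hv : v ∈ S
  · rw [side_of_mem922 f' pr hv]
    exact (hf v).isCompact.image (hpr v)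
  · rw [side_of_not_mem922 f' pr hv]
    exact Fermat.Agent.LT.H767.isCompact_adicCompletionIntegers K v

/-- The box of the finite adeles with the sides `side922`. -/
def box922 (S : Finset (HeightOneSpectrum (𝓞 K)))
    (f' : ∀ v : HeightOneSpectrum (𝓞 K), v.adicCompletion K × v.adicCompletion K → ℂ)
    (pr : ∀ v : HeightOneSpectrum (𝓞 K),
      v.adicCompletion K × v.adicCompletion K → v.adicCompletion K) :
    Set (FiniteAdeleRing (𝓞 K) K) :=
  {y | ∀ v, y v ∈ side922 S f' pr v}

theorem isCompact_box_adele922 (S : Finset (HeightOneSpectrum (𝓞 K)))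
    (f' : ∀ v : HeightOneSpectrum (𝓞 K), v.adicCompletion K × v.adicCompletion K → ℂ)
    (hf : ∀ v, HasCompactSupport (f' v))
    (pr : ∀ v : HeightOneSpectrum (𝓞 K),
      v.adicCompletion K × v.adicCompletion K → v.adicCompletion K)
    (hpr : ∀ v, Continuous (pr v)) : IsCompact (box922 S f' pr) :=
  isCompact_box922 (fun v : HeightOneSpectrum (𝓞 K) => v.adicCompletion K)
    (fun v => (v.adicCompletionIntegers K : Set (v.adicCompletion K)))
    (S : Set (HeightOneSpectrum (𝓞 K))) S.finite_toSet (side922 S f' pr)
    (isCompact_side922 S f' hf pr hpr)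
    (fun v hv => side_of_not_mem922 f' pr (by simpa using hv))

/-- A finite adele is integral at almost all places. -/
theorem finite_not_integral922 (y : FiniteAdeleRing (𝓞 K) K) :
    {v : HeightOneSpectrum (𝓞 K) | y v ∉ v.adicCompletionIntegers K}.Finite := by
  have h := y.2
  rw [Filter.eventually_cofinite] at h
  exact h

/-- The multiplicative support of the finite product is finite. -/
theorem mulSupport_finite922 (S : Finset (HeightOneSpectrum (𝓞 K)))
    (f' : ∀ v : HeightOneSpectrum (𝓞 K), v.adicCompletion K × v.adicCompletion K → ℂ)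
    (hS : ∀ v, v ∉ S → f' v = stdFn v) (ξ : A0.Adl K × A0.Adl K) :
    (Function.mulSupport fun v : HeightOneSpectrum (𝓞 K) => f' v (finVec v ξ)).Finite := by
  refine ((S.finite_toSet.union (finite_not_integral922 ξ.1.2)).union
    (finite_not_integral922 ξ.2.2)).subset ?_
  intro v hv
  rw [Function.mem_mulSupport] at hv
  by_contra hcon
  simp only [Set.mem_union, Finset.mem_coe, Set.mem_ofPred_eq, not_or, not_not] at hcon
  obtain ⟨⟨h1, h2⟩, h3⟩ := hcon
  apply hv
  rw [hS v h1]
  unfold stdFn
  rw [if_pos]
  exact ⟨h2, h3⟩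

/-- **LEAF A2.03.1.3.2 `SuppProdC`.** -/
theorem suppProdC922 : SuppProdC := by
  classical
  intro K _ _ f' hf hstd
  obtain ⟨S, hS⟩ := hstd
  -- bounds of the factors
  have hbd : ∀ v, ∃ C : ℝ, ∀ x, ‖f' v x‖ ≤ C := fun v =>
    (hf v).1.bounded_above_of_compact_support (hf v).2
  choose Cb hCb using hbd
  refine ⟨box922 S f' (fun _ => Prod.fst) ×ˢ box922 S f' (fun _ => Prod.snd),
    ∏ v ∈ S, max 1 (Cb v), ?_, ?_, ?_⟩
  · exact (isCompact_box_adele922 S f' (fun v => (hf v).2) _ (fun _ => continuous_fst)).prod
      (isCompact_box_adele922 S f' (fun v => (hf v).2) _ (fun _ => continuous_snd))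
  · exact Finset.prod_nonneg fun v _ => le_trans zero_le_one (le_max_left _ _)
  · intro ξ
    have hfin := mulSupport_finite922 S f' hS ξ
    constructor
    · intro hB
      -- a factor vanishes
      have key : ∃ v, f' v (finVec v ξ) = 0 := by
        by_contra hne'
        have hne : ∀ v, f' v (finVec v ξ) ≠ 0 := fun v hv => hne' ⟨v, hv⟩
        apply hB
        have hmem : ∀ v, finVec v ξ ∈ tsupport (f' v) := fun v =>
          subset_tsupport _ (Function.mem_support.mpr (hne v))
        have hint : ∀ v, v ∉ S → (finVec v ξ).1 ∈ v.adicCompletionIntegers K ∧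
            (finVec v ξ).2 ∈ v.adicCompletionIntegers K := by
          intro v hv
          have h1 := hne v
          rw [hS v hv] at h1
          unfold stdFn at h1
          by_contra hcon
          rw [if_neg hcon] at h1
          exact h1 rfl
        refine Set.mem_prod.mpr ⟨fun v => ?_, fun v => ?_⟩
        · by_cases hv : v ∈ S
          · rw [side_of_mem922 f' _ hv]
            exact ⟨finVec v ξ, hmem v, rfl⟩
          · rw [side_of_not_mem922 f' _ hv]
            exact (hint v hv).1
        · by_cases hv : v ∈ S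
          · rw [side_of_mem922 f' _ hv]
            exact ⟨finVec v ξ, hmem v, rfl⟩
          · rw [side_of_not_mem922 f' _ hv]
            exact (hint v hv).2
      obtain ⟨v, hv⟩ := key
      exact finprod_eq_zero _ v hv hfin
    · -- the bound
      have hsub : (Function.mulSupport fun v : HeightOneSpectrum (𝓞 K) => f' v (finVec v ξ))
          ⊆ ((S ∪ hfin.toFinset : Finset _) : Set _) := by
        intro v hv
        rw [Finset.coe_union]
        exact Or.inr (by simpa using hv)
      rw [finprod_eq_prod_of_mulSupport_subset _ hsub, norm_prod]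
      have hone : ∀ v, v ∉ S → ‖f' v (finVec v ξ)‖ ≤ 1 := by
        intro v hv
        rw [hS v hv]
        unfold stdFn
        split_ifs <;> simp
      calc ∏ v ∈ S ∪ hfin.toFinset, ‖f' v (finVec v ξ)‖
          ≤ ∏ v ∈ S ∪ hfin.toFinset, (if v ∈ S then max 1 (Cb v) else 1) := by
            refine Finset.prod_le_prod (fun v _ => norm_nonneg _) (fun v _ => ?_)
            by_cases hv : v ∈ S
            · rw [if_pos hv]
              exact le_trans (hCb v _) (le_max_right _ _)
            · rw [if_neg hv]
              exact hone v hv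
        _ = ∏ v ∈ S, (if v ∈ S then max 1 (Cb v) else 1) := by
            refine (Finset.prod_subset Finset.subset_union_left ?_).symm
            intro v _ hv
            rw [if_neg hv]
        _ = ∏ v ∈ S, max 1 (Cb v) := by
            refine Finset.prod_congr rfl fun v hv => ?_
            rw [if_pos hv]

end Leaf

end Fermat.Agent.LT.A2.H922

end
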