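import Mathlib
import Fermat.Agent.LT.A2.H254.IntSpec

/-!
# Row LT, tower A2, leaf A2.03.8.5.7 `H254.T1MeasC254` (helper922) -- OFF-MAIN

`t1MeasC922 : Fermat.Agent.LT.A2.H254.T1MeasC254`, VERBATIM the Prop of
`LT/A2/H254/IntSpec.lean` (helper254@ddb43b08e, sha256 e654c4196f24).

`T¹(𝔸_K)` and `U` are closed in `G K = GL₂(𝔸_K)` (units topology), hence Borel:
* `InTorus t n m ↔ m₀₁ = -(n m₁₀) ∧ m₁₁ = m₀₀ + t m₁₀` (equalisers of continuous maps into the
  Hausdorff ring `𝔸_K`), `det m = 1` likewise;
* `IsIntegralAt v m`: the evaluation `x ↦ x.2 v` of the restricted product is continuous and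
  `𝒪_v` is closed in `K_v`; the inverse is continuous on the group of units.
Only `T2Space (Adl K)` of `T1.LocCompC K` is used.
-/

set_option autoImplicit false
set_option linter.style.haveILetI false

open IsDedekindDomain NumberField AutomorphicForm MeasureTheory
open scoped MatrixGroups

noncomputable section

namespace Fermat.Agent.LT.A2.H922

open Fermat.Agent.LT.H556 Fermat.Agent.LT.H556.A0 Fermat.Agent.LT.A2.H254
open Fermat.Agent.LT.A2

variable {K : Type} [Field K] [NumberField K]

/-- The entries of the matrix of `g ∈ G K` depend continuously on `g`. -/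
theorem continuous_entry922 (i j : Fin 2) :
    Continuous fun g : G K => (g : Matrix (Fin 2) (Fin 2) (Adl K)) i j := by
  have h1 : Continuous fun g : G K => (g : Matrix (Fin 2) (Fin 2) (Adl K)) :=
    Units.continuous_val
  exact h1.matrix_elem i j

/-- The component at the finite place `v` of an entry depends continuously on `g`. -/
theorem continuous_finComp922 (v : HeightOneSpectrum (𝓞 K)) (i j : Fin 2) :
    Continuous fun g : G K => finComp v g i j := by
  have h1 : Continuous fun x : Adl K => x.2 v :=
    (RestrictedProduct.continuous_eval v).comp continuous_snd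
  exact h1.comp (continuous_entry922 i j)

/-- Characterisation of the torus by two linear equations on the entries. -/
theorem inTorus_iff922 (t n : K) (m : G K) :
    InTorus t n m ↔
      (m : Matrix (Fin 2) (Fin 2) (Adl K)) 0 1
          = -(algebraMap K (Adl K) n * (m : Matrix (Fin 2) (Fin 2) (Adl K)) 1 0) ∧
        (m : Matrix (Fin 2) (Fin 2) (Adl K)) 1 1
          = (m : Matrix (Fin 2) (Fin 2) (Adl K)) 0 0
            + algebraMap K (Adl K) t * (m : Matrix (Fin 2) (Fin 2) (Adl K)) 1 0 := by
  constructor
  · rintro ⟨a, b, h⟩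
    rw [h]
    simp [torMat]
  · rintro ⟨h1, h2⟩
    refine ⟨(m : Matrix (Fin 2) (Fin 2) (Adl K)) 0 0,
      (m : Matrix (Fin 2) (Fin 2) (Adl K)) 1 0, ?_⟩
    ext i j
    fin_cases i <;> fin_cases j
    · simp [torMat]
    · simpa [torMat] using h1
    · simp [torMat]
    · simpa [torMat] using h2

/-- `T(𝔸_K)` is closed. -/
theorem isClosed_inTorus922 [T2Space (Adl K)] (t n : K) :
    IsClosed {m : G K | InTorus t n m} := by
  have h : {m : G K | InTorus t n m} =
      {m : G K | (m : Matrix (Fin 2) (Fin 2) (Adl K)) 0 1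
          = -(algebraMap K (Adl K) n * (m : Matrix (Fin 2) (Fin 2) (Adl K)) 1 0)} ∩
        {m : G K | (m : Matrix (Fin 2) (Fin 2) (Adl K)) 1 1
          = (m : Matrix (Fin 2) (Fin 2) (Adl K)) 0 0
            + algebraMap K (Adl K) t * (m : Matrix (Fin 2) (Fin 2) (Adl K)) 1 0} := by
    ext m
    exact inTorus_iff922 t n m
  rw [h]
  refine IsClosed.inter ?_ ?_
  · exact isClosed_eq (continuous_entry922 0 1)
      ((continuous_const.mul (continuous_entry922 1 0)).neg)
  · exact isClosed_eq (continuous_entry922 1 1)
      ((continuous_entry922 0 0).add (continuous_const.mul (continuous_entry922 1 0)))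

/-- `{det = 1}` is closed. -/
theorem isClosed_det_one922 [T2Space (Adl K)] :
    IsClosed {m : G K | Matrix.GeneralLinearGroup.det m = 1} := by
  have h : {m : G K | Matrix.GeneralLinearGroup.det m = 1} =
      {m : G K | Matrix.det (m : Matrix (Fin 2) (Fin 2) (Adl K)) = 1} := by
    ext m
    simp only [Set.mem_ofPred_eq]
    rw [← Units.val_inj]
    rfl
  rw [h]
  exact isClosed_eq (Continuous.matrix_det Units.continuous_val) continuous_const

/-- `T¹(𝔸_K)` is closed. -/
theorem isClosed_T1set922 [T2Space (Adl K)] (t n : K) : IsClosed (T1set254 t n) := by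
  have h : T1set254 t n = {m : G K | InTorus t n m} ∩
      {m : G K | Matrix.GeneralLinearGroup.det m = 1} := rfl
  rw [h]
  exact (isClosed_inTorus922 t n).inter isClosed_det_one922

/-- `{m | m integral at v}` is closed. -/
theorem isClosed_isIntegralAt922 (v : HeightOneSpectrum (𝓞 K)) :
    IsClosed {m : G K | IsIntegralAt v m} := by
  have h : {m : G K | IsIntegralAt v m} =
      ⋂ i : Fin 2, ⋂ j : Fin 2,
        (fun g : G K => finComp v g i j) ⁻¹' (v.adicCompletionIntegers K : Set _) := by
    ext m
    simp only [Set.mem_ofPred_eq, Set.mem_iInter, Set.mem_preimage, SetLike.mem_coe]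
    rfl
  rw [h]
  refine isClosed_iInter fun i => isClosed_iInter fun j => ?_
  exact (Valued.isClosed_valuationSubring (v.adicCompletion K)).preimage
    (continuous_finComp922 v i j)

/-- `U` is closed. -/
theorem isClosed_Uset922 [T2Space (Adl K)] (t n : K) (v : HeightOneSpectrum (𝓞 K)) :
    IsClosed (Uset254 t n v) := by
  have h : Uset254 t n v = T1set254 t n ∩
      ({m : G K | IsIntegralAt v m} ∩ (fun m : G K => m⁻¹) ⁻¹' {m : G K | IsIntegralAt v m}) :=
    rfl
  rw [h]
  exact (isClosed_T1set922 t n).inter
    ((isClosed_isIntegralAt922 v).inter ((isClosed_isIntegralAt922 v).preimage continuous_inv))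

/-- **LEAF A2.03.8.5.7 `T1MeasC254`.** -/
theorem t1MeasC922 : T1MeasC254 := by
  intro K _ _ hloc t n v
  haveI : T2Space (Adl K) := hloc.1.2.1
  letI : MeasurableSpace (G K) := borel (G K)
  haveI : BorelSpace (G K) := ⟨rfl⟩
  exact ⟨(isClosed_T1set922 t n).measurableSet, (isClosed_Uset922 t n v).measurableSet⟩

end Fermat.Agent.LT.A2.H922

end
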